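import Mathlib

/-!
# Row LT, tower T2, sub-leaf T2.10.08.05 (helper98): continuous characters of `ℝ` and `ℂ`

* `char_real98`: a continuous `ψ : ℝ → ℂ` with `ψ (x + y) = ψ x * ψ y` and `‖ψ x‖ = 1` is
  `x ↦ exp (i a x)` (`c₀ = ∫₀^δ ψ ≠ 0`, `ψ x * c₀ = ∫_x^{x+δ} ψ` is differentiable,
  `ψ' = λ ψ`, `ψ = exp (λ x)`, `‖ψ‖ = 1` gives `Re λ = 0`).
* `char_complex98`: the same on `ℂ`: `χ z = exp (i Re (conj c * z))`.
Mathlib only.
-/

set_option autoImplicit false

noncomputable section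

namespace Fermat.Agent.LT.T2.H98

open Complex MeasureTheory intervalIntegral Topology

/-- A multiplicative continuous function of norm one on `ℝ` has a nonzero integral over a small
interval. -/
theorem exists_integral_ne_zero98 (ψ : ℝ → ℂ) (hc : Continuous ψ) (h0 : ψ 0 = 1) :
    ∃ δ : ℝ, 0 < δ ∧ (∫ t in (0 : ℝ)..δ, ψ t) ≠ 0 := by
  have hcont : ContinuousAt ψ 0 := hc.continuousAt
  rw [Metric.continuousAt_iff] at hcont
  obtain ⟨ε, hε, hε'⟩ := hcont (1 / 2) (by norm_num)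
  refine ⟨ε / 2, by positivity, ?_⟩
  have hδ : ∀ t ∈ Set.uIoc (0 : ℝ) (ε / 2), ‖ψ t - 1‖ ≤ 1 / 2 := by
    intro t ht
    rw [Set.uIoc_of_le (by positivity)] at ht
    have h1 : dist t 0 < ε := by
      rw [Real.dist_eq, sub_zero, abs_of_pos ht.1]
      linarith [ht.2]
    have h2 := hε' h1
    rw [h0, dist_eq_norm] at h2
    exact h2.le
  have h1 : (∫ t in (0 : ℝ)..(ε / 2), ψ t) - ((ε / 2 : ℝ) : ℂ)
      = ∫ t in (0 : ℝ)..(ε / 2), (ψ t - 1) := by
    rw [intervalIntegral.integral_sub (hc.intervalIntegrable _ _) intervalIntegrable_const]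
    simp
  have h2 : ‖∫ t in (0 : ℝ)..(ε / 2), (ψ t - 1)‖ ≤ 1 / 2 * |ε / 2 - 0| :=
    intervalIntegral.norm_integral_le_of_norm_le_const hδ
  intro h
  rw [h, zero_sub] at h1
  rw [← h1, norm_neg, Complex.norm_real, Real.norm_eq_abs, sub_zero] at h2
  have h3 : 0 < |ε / 2| := abs_pos.mpr (by positivity)
  linarith

/-- **Continuous characters of `ℝ`.** -/
theorem char_real98 (ψ : ℝ → ℂ) (hc : Continuous ψ) (hadd : ∀ x y : ℝ, ψ (x + y) = ψ x * ψ y)
    (hnorm : ∀ x : ℝ, ‖ψ x‖ = 1) :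
    ∃ a : ℝ, ∀ x : ℝ, ψ x = Complex.exp (Complex.I * ((a * x : ℝ) : ℂ)) := by
  have hne : ∀ x : ℝ, ψ x ≠ 0 := by
    intro x hx
    have := hnorm x
    rw [hx, norm_zero] at this
    exact zero_ne_one this
  have h0 : ψ 0 = 1 := by
    have h1 := hadd 0 0
    rw [add_zero] at h1
    have h2 : ψ 0 * 1 = ψ 0 * ψ 0 := by rw [mul_one]; exact h1
    exact (mul_left_cancel₀ (hne 0) h2).symm
  obtain ⟨δ, hδ, hc0⟩ := exists_integral_ne_zero98 ψ hc h0
  set c0 : ℂ := ∫ t in (0 : ℝ)..δ, ψ t with hc0def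
  have hshift : ∀ x : ℝ, ψ x * c0 = ∫ t in x..(x + δ), ψ t := by
    intro x
    have h1 : (∫ t in (0 : ℝ)..δ, ψ (x + t)) = ∫ t in (x + 0)..(x + δ), ψ t :=
      intervalIntegral.integral_comp_add_left ψ x
    rw [add_zero] at h1
    rw [← h1, hc0def, ← intervalIntegral.integral_const_mul]
    congr 1
    funext t
    rw [hadd]
  have hF : ∀ y : ℝ, HasDerivAt (fun u : ℝ => ∫ t in (0 : ℝ)..u, ψ t) (ψ y) y := fun y =>
    intervalIntegral.integral_hasDerivAt_right (hc.intervalIntegrable _ _)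
      (hc.stronglyMeasurableAtFilter _ _) hc.continuousAt
  have hrep : ∀ y : ℝ, ψ y = ((∫ t in (0 : ℝ)..(y + δ), ψ t) - ∫ t in (0 : ℝ)..y, ψ t) / c0 := by
    intro y
    rw [intervalIntegral.integral_interval_sub_left (hc.intervalIntegrable _ _)
      (hc.intervalIntegrable _ _), ← hshift y]
    field_simp
  set lam : ℂ := (ψ δ - 1) / c0 with hlam
  have hderiv : ∀ x : ℝ, HasDerivAt ψ (lam * ψ x) x := by
    intro x
    have h1 : HasDerivAt (fun y : ℝ => ((∫ t in (0 : ℝ)..(y + δ), ψ t)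
        - ∫ t in (0 : ℝ)..y, ψ t) / c0) ((ψ (x + δ) - ψ x) / c0) x :=
      (((hF (x + δ)).comp_add_const x δ).sub (hF x)).div_const c0
    have h3 : lam * ψ x = (ψ (x + δ) - ψ x) / c0 := by
      rw [hlam, hadd]
      field_simp
    rw [h3]
    exact h1.congr_of_eventuallyEq (Filter.Eventually.of_forall (fun y => hrep y))
  -- `g x = ψ x * exp (-lam x)` is constant
  have hg : ∀ x : ℝ, HasDerivAt (fun y : ℝ => ψ y * Complex.exp (-lam * (y : ℂ))) 0 x := by
    intro x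
    have h1 : HasDerivAt (fun y : ℝ => Complex.exp (-lam * (y : ℂ)))
        (Complex.exp (-lam * (x : ℂ)) * (-lam * 1)) x := by
      have h2 : HasDerivAt (fun y : ℝ => -lam * (y : ℂ)) (-lam * 1) x :=
        (Complex.ofRealCLM.hasDerivAt (x := x)).const_mul (-lam)
      exact h2.cexp
    have h3 := (hderiv x).mul h1
    have h4 : lam * ψ x * Complex.exp (-lam * (x : ℂ))
        + ψ x * (Complex.exp (-lam * (x : ℂ)) * (-lam * 1)) = 0 := by ring
    rw [h4] at h3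
    exact h3
  have hconst : ∀ x : ℝ, ψ x * Complex.exp (-lam * (x : ℂ)) = 1 := by
    intro x
    have h1 : Differentiable ℝ (fun y : ℝ => ψ y * Complex.exp (-lam * (y : ℂ))) :=
      fun y => (hg y).differentiableAt
    have h2 := is_const_of_deriv_eq_zero h1 (fun y => (hg y).deriv) x 0
    rw [h2]
    simp [h0]
  have hexp : ∀ x : ℝ, ψ x = Complex.exp (lam * (x : ℂ)) := by
    intro x
    have h1 := hconst x
    have h2 : Complex.exp (lam * (x : ℂ)) * Complex.exp (-lam * (x : ℂ)) = 1 := by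
      rw [← Complex.exp_add]
      simp
    have h3 : Complex.exp (-lam * (x : ℂ)) ≠ 0 := Complex.exp_ne_zero _
    exact mul_right_cancel₀ h3 (h1.trans h2.symm)
  have hre : lam.re = 0 := by
    have h1 := hnorm 1
    rw [hexp 1, Complex.norm_exp] at h1
    simp only [Complex.ofReal_one, mul_one] at h1
    have h2 : Real.exp lam.re = Real.exp 0 := by rw [h1, Real.exp_zero]
    exact Real.exp_injective h2
  refine ⟨lam.im, fun x => ?_⟩
  rw [hexp x]
  congr 1
  apply Complex.ext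
  · simp [hre]
  · simp [hre]

/-- **Continuous characters of `ℂ`.** -/
theorem char_complex98 (χ : ℂ → ℂ) (hc : Continuous χ)
    (hadd : ∀ x y : ℂ, χ (x + y) = χ x * χ y) (hnorm : ∀ x : ℂ, ‖χ x‖ = 1) :
    ∃ c : ℂ, ∀ x : ℂ,
      χ x = Complex.exp (Complex.I * ((((starRingEnd ℂ) c * x).re : ℝ) : ℂ)) := by
  obtain ⟨a, ha⟩ := char_real98 (fun x : ℝ => χ (x : ℂ))
    (hc.comp Complex.continuous_ofReal)
    (fun x y => by
      show χ ((x + y : ℝ) : ℂ) = χ (x : ℂ) * χ (y : ℂ)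
      rw [Complex.ofReal_add, hadd])
    (fun x => hnorm _)
  obtain ⟨b, hb⟩ := char_real98 (fun y : ℝ => χ ((y : ℂ) * Complex.I))
    (hc.comp (Complex.continuous_ofReal.mul continuous_const))
    (fun x y => by
      show χ (((x + y : ℝ) : ℂ) * Complex.I) = χ ((x : ℂ) * Complex.I) * χ ((y : ℂ) * Complex.I)
      rw [Complex.ofReal_add, add_mul, hadd])
    (fun x => hnorm _)
  refine ⟨⟨a, b⟩, fun z => ?_⟩
  have hz : z = (z.re : ℂ) + (z.im : ℂ) * Complex.I := (Complex.re_add_im z).symm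
  have h1 : χ z = χ (z.re : ℂ) * χ ((z.im : ℂ) * Complex.I) := by
    conv_lhs => rw [hz]
    rw [hadd]
  rw [h1]
  have h2 : χ (z.re : ℂ) = Complex.exp (Complex.I * ((a * z.re : ℝ) : ℂ)) := ha z.re
  have h3 : χ ((z.im : ℂ) * Complex.I) = Complex.exp (Complex.I * ((b * z.im : ℝ) : ℂ)) :=
    hb z.im
  rw [h2, h3, ← Complex.exp_add]
  congr 1
  have h4 : ((starRingEnd ℂ) (⟨a, b⟩ : ℂ) * z).re = a * z.re + b * z.im := by
    simp [Complex.mul_re]
  rw [h4]
  push_cast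
  ring

end Fermat.Agent.LT.T2.H98

end
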