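import Mathlib
import Fermat.Agent.LT.T2.H973.ArchSpec
import Fermat.Agent.LT.T2.H98.CharAbs

/-!
# Row LT, tower T2, sub-leaf T2.10.08.05 `CharClassC` (helper98): PROVED

A continuous character `χ : AddChar ℂ Circle` is `x ↦ exp (i Re (conj c * x))`
(`char_complex98`, Mathlib only).
-/

set_option autoImplicit false

noncomputable section

namespace Fermat.Agent.LT.T2.H98

/-- **T2.10.08.05 `CharClassC`.** -/
theorem charClassC98 : Fermat.Agent.LT.T2.H973.CharClassC := by
  intro χ hχ
  obtain ⟨c, hc⟩ := char_complex98 (fun x : ℂ => ((χ x : Circle) : ℂ))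
    (continuous_subtype_val.comp hχ)
    (fun x y => by
      show ((χ (x + y) : Circle) : ℂ) = ((χ x : Circle) : ℂ) * ((χ y : Circle) : ℂ)
      rw [AddChar.map_add_eq_mul, Circle.coe_mul])
    (fun x => Circle.norm_coe _)
  exact ⟨c, fun x => hc x⟩

end Fermat.Agent.LT.T2.H98

end
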